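import Fermat.Agent.CFT.Local.Final
import Fermat.Agent.CFT.Global.Hasse

/-!
# `H²(G_l, ℤ/p)` is one-dimensional, for all primes `p` (including `p = 2`)

The skew-symmetry of the symbol holds without the assumption `p ≠ 2`: for `p = 2` one has
`(b, b) = (b, ζ)` where `ζ` is the element of order two, and this is additive in `b`.
-/

set_option autoImplicit false
set_option linter.unusedSectionVars false

universe u v

namespace Fermat.Agent.CFTLocal

open Fermat.Agent.PT

section

variable {p : ℕ} [Fact p.Prime]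
variable {G : Type*} [Group G] {𝓛 : LevelSys G}
variable {M : Type*} [AddCommGroup M] {ρ : Representation ℤ G M}

namespace KummerData

variable {ζ : M} (h : KummerData p 𝓛 ρ ζ)

include h

/-- `ζ` as an invariant. -/
def zinv : ↥ρ.invariants := ⟨ζ, h.fix⟩

/-- For `p = 2`, `(b, b) = (b, ζ)`. -/
lemma pair_self_two (hp2 : p = 2) (b : ↥ρ.invariants) : h.pair b b = h.pair b h.zinv := by
  subst hp2
  by_cases hb : h.kc b = 1
  · rw [h.pair_eq_zero_of_kc b hb]
    rfl
  obtain ⟨s, hs⟩ := exists_eq_ofAdd_one hb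
  rw [← sub_eq_zero, ← map_sub, h.pair_eq_zero_iff hs]
  refine ⟨h.root b, fun u hu => (h.mem_ker_kch _ (h.root_fix b) u).mp hu, ?_⟩
  have hpow : ∀ i : ℕ, ρ (s ^ i) (h.root b) = h.root b + i • ζ := by
    intro i
    rw [h.map_eq_add (h.root b) (h.root_fix b) (s ^ i)]
    congr 1
    have h1 : cval (h.kch (h.root b) (h.root_fix b)) (s ^ i) = i % 2 := cval_pow hs i
    rw [h1]
    conv_rhs => rw [← Nat.mod_add_div i 2]
    rw [add_smul, mul_smul, smul_comm, h.zeta, smul_zero, add_zero]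
  unfold pnorm
  have h2 : (2 : ℕ) • h.root b = b.1 := h.p_root b
  have h3 : (2 : ℕ) • ζ = 0 := h.zeta
  rw [Finset.sum_congr rfl (fun i _ => hpow i), Finset.sum_range_succ, Finset.sum_range_one,
    zero_smul, add_zero, one_smul, ← add_assoc, ← two_nsmul, h2]
  change b.1 - ζ = b.1 + ζ
  rw [sub_eq_iff_eq_add, add_assoc, ← two_nsmul, h3, add_zero]

/-- The symbol is skew-symmetric. -/
lemma pair_skew_all (a b : ↥ρ.invariants) : h.pair a b = - h.pair b a := by
  by_cases hp2 : p = 2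
  · have h1 := h.pair_self_two hp2 (a + b)
    rw [map_add, map_add, AddMonoidHom.add_apply, AddMonoidHom.add_apply, AddMonoidHom.add_apply,
      ← h.pair_self_two hp2 a, ← h.pair_self_two hp2 b] at h1
    have h2 : h.pair b a + h.pair a b = 0 := by
      have h3 : h.pair a a + h.pair b a + (h.pair a b + h.pair b b) =
          (h.pair b a + h.pair a b) + (h.pair a a + h.pair b b) := by abel
      rw [h3] at h1
      exact add_eq_right.mp h1
    exact eq_neg_of_add_eq_zero_right h2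
  · exact h.pair_skew hp2 a b

end KummerData

namespace KummerData

variable {ζ : M} (h : KummerData p 𝓛 ρ ζ) (hN : NormData p 𝓛 ρ)

include h hN

/-- Two nontrivial partial pairings have the same image. -/
lemma range_pair_eq_all {b b' : ↥ρ.invariants} (hb : h.pair b ≠ 0)
    (hb' : h.pair b' ≠ 0) : (h.pair b).range = (h.pair b').range :=
  range_eq_range p h.pair h.pair_skew_all (fun b hb => h.index_ker_pair' hN b hb) b b' hb hb'

lemma line_eq_all {b : ↥ρ.invariants} (hb : h.kc b ≠ 1) :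
    h.line = (h.pair b).range := by
  apply le_antisymm
  · refine iSup_le fun b' => ?_
    by_cases hb' : h.pair b' = 0
    · rintro _ ⟨a, rfl⟩
      rw [hb']
      exact (h.pair b).range.zero_mem
    · rw [h.range_pair_eq_all hN hb' (h.pair_ne_zero hN hb)]
  · exact le_iSup (fun b => (h.pair b).range) b

lemma card_line_all : Nat.card h.line = p := by
  obtain ⟨b, hb⟩ := h.exists_kc_ne_one hN
  rw [h.line_eq_all hN hb]
  exact card_range_of_index p _ (h.index_ker_pair hN hb)

/-- Elements killed by restriction to the kernel of a nontrivial character are symbols. -/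
lemma mem_line_of_res_all {χ : G →* Multiplicative (ZMod p)} (hχ : χ.ker ∈ 𝓛)
    (hχ1 : χ ≠ 1) (x : H2 𝓛 ρ)
    (hx : res2 (𝓛' := 𝓛.restrict χ.ker) χ.ker.subtype (LevelSys.compat_comap _) ρ x = 0) :
    x ∈ h.line := by
  obtain ⟨s, hs⟩ := exists_eq_ofAdd_one hχ1
  obtain ⟨a, rfl⟩ := exists_symb_of_res h.disc hχ (h.hilb _ hχ) hs x hx
  obtain ⟨b, rfl⟩ := h.exists_kc_eq χ hχ
  exact h.pair_mem_line b a

/-- The norm group of one cyclic extension is not contained in all the norm groups. -/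
lemma exists_norm_pair_ne_zero_all {χ : G →* Multiplicative (ZMod p)} (hχ : χ.ker ∈ 𝓛)
    {s : G} (hs : χ s = Multiplicative.ofAdd 1) :
    ∃ a ∈ nrm ρ χ s, ∃ b, h.pair b a ≠ 0 := by
  by_contra hcon
  push Not at hcon
  have hle : nrm ρ χ s ≤ (nsmulAddMonoidHom p : ↥ρ.invariants →+ ↥ρ.invariants).range := by
    intro a ha
    have h1 : h.pair a = 0 := by
      ext b
      rw [h.pair_skew_all, hcon a ha b]
      simp
    obtain ⟨β, hβ⟩ := (h.pair_eq_zero_iff_pow hN a).mp h1
    exact ⟨β, hβ⟩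
  have h2 := AddSubgroup.index_dvd_of_le hle
  rw [hN.idx χ hχ s hs] at h2
  exact absurd (Nat.le_of_dvd (Fact.out : p.Prime).pos h2) (not_le.mpr hN.big.2)

end KummerData

namespace KummerData

variable {ζ : M} (h : KummerData p 𝓛 ρ ζ)

include h

/-- **The tower step.** -/
theorem mem_line_of_res_mem_line_all (hN : NormData p 𝓛 ρ)
    {χ : G →* Multiplicative (ZMod p)} (hχ : χ.ker ∈ 𝓛) (hχ1 : χ ≠ 1)
    (hN1 : NormData p (𝓛.restrict χ.ker) (resRep ρ χ.ker)) (α : H2 𝓛 ρ) (hα : p • α = 0)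
    (hres : res2 χ.ker.subtype (LevelSys.compat_comap _) ρ α ∈ (h.restrict hχ).line) :
    α ∈ h.line := by
  by_cases h0 : res2 (𝓛' := 𝓛.restrict χ.ker) χ.ker.subtype (LevelSys.compat_comap _) ρ α = 0
  · exact h.mem_line_of_res_all hN hχ hχ1 α h0
  exfalso
  obtain ⟨s, hs⟩ := exists_eq_ofAdd_one hχ1
  obtain ⟨a, ⟨a₁, ha₁, haa⟩, b, hab⟩ := h.exists_norm_pair_ne_zero_all hN hχ hs
  set h1 := h.restrict hχ with hh1
  set ψ := h.kc b with hψ
  have hψ' : (ψ.comp χ.ker.subtype).ker ∈ 𝓛.restrict χ.ker := by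
    rw [hψ, ← h.kc_restrict hχ]
    exact h1.kc_ker_mem _
  have hmem : symb (resRep ρ χ.ker) (ψ.comp χ.ker.subtype) hψ' ⟨a₁, fun u => ha₁ u u.2⟩
      ∈ h1.line := by
    have := h1.pair_mem_line (invIncl ρ χ.ker b) ⟨a₁, fun u => ha₁ u u.2⟩
    rw [h1.pair_apply, symb_congr (h.kc_restrict hχ b) (h1.kc_ker_mem _) hψ'] at this
    exact this
  -- every element of the line is a multiple of `res α`
  have hcard := h1.card_line_all hN1
  obtain ⟨m, hm⟩ : ∃ m : ℤ, m • (res2 (𝓛' := 𝓛.restrict χ.ker) χ.ker.subtype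
      (LevelSys.compat_comap _) ρ α)
      = symb (resRep ρ χ.ker) (ψ.comp χ.ker.subtype) hψ' ⟨a₁, fun u => ha₁ u u.2⟩ := by
    set x := res2 (𝓛' := 𝓛.restrict χ.ker) χ.ker.subtype (LevelSys.compat_comap _) ρ α with hx
    have hz : Nat.card (AddSubgroup.zmultiples x) = p := by
      haveI : Finite h1.line :=
        Nat.finite_of_card_ne_zero (by rw [hcard]; exact (Fact.out : p.Prime).ne_zero)
      have hle : AddSubgroup.zmultiples x ≤ h1.line := by
        rw [AddSubgroup.zmultiples_le]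
        exact hres
      have hdvd : Nat.card (AddSubgroup.zmultiples x) ∣ p := by
        have h3 := AddSubgroup.card_dvd_of_le hle
        rw [hcard] at h3
        exact h3
      refine ((Nat.dvd_prime Fact.out).mp hdvd).resolve_left fun hone => h0 ?_
      rw [AddSubgroup.card_eq_one, AddSubgroup.zmultiples_eq_bot] at hone
      exact hone
    have := range_eq_of_common p hcard hz h0 hres (AddSubgroup.mem_zmultiples x)
    rw [this] at hmem
    exact AddSubgroup.mem_zmultiples_iff.mp hmem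
  have key := smul_eq_symb_of_res_ker hχ hs ψ (h.kc_ker_mem b)
    (⟨a₁, fun u => ha₁ u u.2⟩ : ↥(resRep ρ χ.ker).invariants) a haa (m • α) hψ' (by
      rw [map_zsmul]
      exact hm)
  apply hab
  rw [h.pair_apply, ← key, smul_comm, hα, smul_zero]

end KummerData

end

variable {p : ℕ} [Fact p.Prime] {M : Type v} [AddCommGroup M] {ζ : M}

/-- Tower argument. -/
theorem mem_line_of_diesOn_all (n : ℕ) : ∀ {G : Type u} [Group G] {𝓛 : LevelSys G}
    {ρ : Representation ℤ G M} (h : KummerData p 𝓛 ρ ζ) (_ : NormAll p 𝓛 ρ) (V : Subgroup G)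
    (_ : V ∈ 𝓛) (_ : V.Normal) (_ : V.index = p ^ n) (c : ↥(Z2 𝓛 ρ))
    (_ : p • H2mk 𝓛 ρ c = 0) (_ : DiesOn 𝓛 ρ V c.1), H2mk 𝓛 ρ c ∈ h.line := by
  induction n with
  | zero =>
    intro G _ 𝓛 ρ h hN V hV hn hidx c hc hd
    rw [pow_zero, Subgroup.index_eq_one] at hidx
    rw [eq_zero_of_diesOn_top c hidx hd]
    exact h.line.zero_mem
  | succ n ih =>
    intro G _ 𝓛 ρ h hN V hV hn hidx c hc hd
    obtain ⟨χ, hχ1, hVχ⟩ := exists_char_of_index (p := p) V hidx
    have hχ : χ.ker ∈ 𝓛 := LevelSys.mono hV hVχ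
    refine h.mem_line_of_res_mem_line_all hN.self hχ hχ1 (hN χ.ker hχ) _ hc ?_
    rw [res2, H2map_mk]
    have hker : χ.ker.index = p := by
      have hsurj : Function.Surjective χ := by
        obtain ⟨s, hs⟩ := exists_eq_ofAdd_one hχ1
        intro y
        refine ⟨s ^ (Multiplicative.toAdd y).val, ?_⟩
        rw [map_pow, hs, ← ofAdd_nsmul]
        simp
      rw [Subgroup.index_ker, MonoidHom.range_eq_top.mpr hsurj, Subgroup.card_top,
        Nat.card_congr Multiplicative.toAdd, Nat.card_zmod]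
    have hidx' : (V.subgroupOf χ.ker).index = p ^ n := by
      have h1 := Subgroup.relIndex_mul_index hVχ
      rw [hidx, hker, pow_succ] at h1
      exact Nat.eq_of_mul_eq_mul_right (Fact.out : p.Prime).pos h1
    refine ih (h.restrict hχ) (hN.restrict hχ) (V.subgroupOf χ.ker) ⟨V, hV, le_rfl⟩
      inferInstance hidx' _ ?_ (diesOn_restrict hd)
    have := congrArg (res2 (𝓛' := 𝓛.restrict χ.ker) χ.ker.subtype (LevelSys.compat_comap _) ρ) hc
    rw [map_nsmul, map_zero] at this
    exact this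

namespace KummerData

variable {G : Type u} [Group G] {𝓛 : LevelSys G} {ρ : Representation ℤ G M}
  (h : KummerData p 𝓛 ρ ζ) (hN : NormAll p 𝓛 ρ)

include h hN

/-- **Main theorem**: the `p`-torsion of `H²(G, M)` is the line spanned by the symbols. -/
theorem torsion_iff_all (α : H2 𝓛 ρ) : p • α = 0 ↔ α ∈ h.line := by
  classical
  refine ⟨fun hα => ?_, fun hα => h.nsmul_line hα⟩
  have hp : p.Prime := Fact.out
  -- a generator of the line
  have hcard := h.card_line_all hN.self
  haveI : Finite h.line := Nat.finite_of_card_ne_zero (by rw [hcard]; exact hp.ne_zero)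
  obtain ⟨β, hβ, hβ0⟩ : ∃ β ∈ h.line, β ≠ 0 := by
    by_contra hcon
    push Not at hcon
    have : h.line = ⊥ := (AddSubgroup.eq_bot_iff_forall _).mpr hcon
    rw [this, AddSubgroup.card_bot] at hcard
    exact hp.one_lt.ne hcard
  have hβp : p • β = 0 := h.nsmul_line hβ
  obtain ⟨c, rfl⟩ := H2mk_surjective α
  obtain ⟨d, rfl⟩ := H2mk_surjective β
  obtain ⟨V₁, hV₁, hn₁, hd₁⟩ := exists_diesOn h.disc c
  obtain ⟨V₂, hV₂, hn₂, hd₂⟩ := exists_diesOn h.disc d
  set V := V₁ ⊓ V₂ with hVdef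
  have hV : V ∈ 𝓛 := LevelSys.inf_mem hV₁ hV₂
  haveI hVn : V.Normal := by rw [hVdef]; infer_instance
  haveI := LevelSys.finiteIndex hV
  haveI : Finite (G ⧸ V) := inferInstance
  -- a Sylow subgroup of `G ⧸ V`
  obtain ⟨P⟩ : Nonempty (Sylow p (G ⧸ V)) := inferInstance
  set U : Subgroup G := (P : Subgroup (G ⧸ V)).comap (QuotientGroup.mk' V) with hUdef
  have hVU : V ≤ U := by
    intro v hv
    rw [hUdef, Subgroup.mem_comap]
    have : (QuotientGroup.mk' V) v = 1 := (QuotientGroup.eq_one_iff (N := V) v).mpr hv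
    rw [this]
    exact one_mem _
  have hU : U ∈ 𝓛 := LevelSys.mono hV hVU
  have hUidx : ¬ p ∣ U.index := by
    rw [hUdef, Subgroup.index_comap_of_surjective _ (QuotientGroup.mk'_surjective V)]
    exact P.not_dvd_index
  obtain ⟨n, hn⟩ : ∃ n, (V.subgroupOf U).index = p ^ n := by
    obtain ⟨n, hn⟩ := IsPGroup.iff_card.mp P.isPGroup'
    refine ⟨n, ?_⟩
    have h1 := Subgroup.relIndex_mul_index hVU
    have h2 : V.index = Nat.card (G ⧸ V) := Subgroup.index_eq_card V
    have h3 := (P : Subgroup (G ⧸ V)).card_mul_index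
    rw [hn] at h3
    have h4 : U.index = (P : Subgroup (G ⧸ V)).index := by
      rw [hUdef, Subgroup.index_comap_of_surjective _ (QuotientGroup.mk'_surjective V)]
    rw [h2, ← h3, h4] at h1
    exact Nat.eq_of_mul_eq_mul_right (Nat.pos_of_ne_zero P.index_ne_zero_of_finite) h1
  set r := res2 (𝓛' := 𝓛.restrict U) U.subtype (LevelSys.compat_comap _) ρ with hr
  have hUL := h.restrict hU
  have key : ∀ e : ↥(Z2 𝓛 ρ), p • H2mk 𝓛 ρ e = 0 → DiesOn 𝓛 ρ V e.1 →
      r (H2mk 𝓛 ρ e) ∈ (h.restrict hU).line := by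
    intro e he hde
    have h5 := congrArg r he
    rw [map_nsmul, map_zero] at h5
    rw [hr, res2, H2map_mk] at h5 ⊢
    exact mem_line_of_diesOn_all n (h.restrict hU) (hN.restrict hU) (V.subgroupOf U)
      ⟨V, hV, le_rfl⟩ inferInstance hn _ h5 (diesOn_restrict hde)
  have k1 := key c hα (hd₁.mono (inf_le_left))
  have k2 := key d hβp (hd₂.mono (inf_le_right))
  -- injectivity of the restriction on `p`-torsion
  have hinj : ∀ γ : H2 𝓛 ρ, p • γ = 0 → r γ = 0 → γ = 0 := by
    intro γ hγ hrγ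
    have h6 := index_smul_eq_zero hU γ hrγ
    have hcop : Nat.Coprime p U.index := (Nat.Prime.coprime_iff_not_dvd hp).mpr hUidx
    have h7 : (1 : ℤ) • γ = 0 := by
      have hb := Nat.gcd_eq_gcd_ab p U.index
      rw [hcop] at hb
      rw [Nat.cast_one] at hb
      rw [hb, add_smul, mul_comm (p : ℤ), mul_comm (U.index : ℤ), mul_smul, mul_smul,
        natCast_zsmul, natCast_zsmul, hγ, h6, smul_zero, smul_zero, add_zero]
    rwa [one_smul] at h7
  have hrd : r (H2mk 𝓛 ρ d) ≠ 0 := fun h8 => hβ0 (hinj _ hβp h8)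
  -- the line over `U` is generated by `r d`
  have hcardU := (h.restrict hU).card_line_all (hN.restrict hU).self
  haveI : Finite (h.restrict hU).line :=
    Nat.finite_of_card_ne_zero (by rw [hcardU]; exact hp.ne_zero)
  have hz : Nat.card (AddSubgroup.zmultiples (r (H2mk 𝓛 ρ d))) = p := by
    have hle : AddSubgroup.zmultiples (r (H2mk 𝓛 ρ d)) ≤ (h.restrict hU).line := by
      rw [AddSubgroup.zmultiples_le]
      exact k2
    have h3 := AddSubgroup.card_dvd_of_le hle
    rw [hcardU] at h3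
    refine ((Nat.dvd_prime hp).mp h3).resolve_left fun hone => hrd ?_
    rw [AddSubgroup.card_eq_one, AddSubgroup.zmultiples_eq_bot] at hone
    exact hone
  have heq := range_eq_of_common p hcardU hz hrd k2 (AddSubgroup.mem_zmultiples _)
  rw [heq, AddSubgroup.mem_zmultiples_iff] at k1
  obtain ⟨m, hm⟩ := k1
  have h9 : H2mk 𝓛 ρ c - m • H2mk 𝓛 ρ d = 0 := by
    apply hinj
    · rw [smul_sub, hα, smul_comm, hβp, smul_zero, sub_zero]
    · rw [map_sub, map_zsmul, hm, sub_self]
  rw [sub_eq_zero] at h9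
  rw [h9]
  exact h.line.zsmul_mem hβ m

end KummerData

section

variable {p : ℕ} [Fact p.Prime] {M : Type*} [AddCommGroup M] {ζ : M}
variable {G : Type*} [Group G] {𝓛 : LevelSys G} {ρ : Representation ℤ G M}
variable {ρ₀ : Representation (ZMod p) G (ZMod p)}

namespace KummerData

variable (h : KummerData p 𝓛 ρ ζ) (h₀ : ∀ g x, ρ₀ g x = x)

include h h₀

/-- `H²(G, ℤ/p)` has order `p`. -/
theorem card_H2_all (hN : NormAll p 𝓛 ρ) : Nat.card (H2 𝓛 ρ₀) = p := by
  rw [h.card_H2_eq_torsion h₀]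
  refine Eq.trans ?_ (h.card_line_all hN.self)
  exact Nat.card_congr (Equiv.subtypeEquivRight fun α => h.torsion_iff_all hN α)

theorem finrank_H2_all (hN : NormAll p 𝓛 ρ) :
    Module.finrank (ZMod p) (H2 𝓛 ρ₀) = 1 := by
  have hc := h.card_H2_all h₀ hN
  haveI : Finite (H2 𝓛 ρ₀) :=
    Nat.finite_of_card_ne_zero (by rw [hc]; exact (Fact.out : p.Prime).ne_zero)
  haveI : Module.Finite (ZMod p) (H2 𝓛 ρ₀) := Module.Finite.of_finite
  have h1 := Module.natCard_eq_pow_finrank (K := ZMod p) (V := H2 𝓛 ρ₀)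
  rw [hc, Nat.card_zmod] at h1
  have h2 : p ^ 1 = p ^ Module.finrank (ZMod p) (H2 𝓛 ρ₀) := by rw [pow_one]; exact h1
  exact (Nat.pow_right_injective (Fact.out : p.Prime).two_le h2).symm

end KummerData

end

section

variable {q : ℕ} [Fact q.Prime] {p : ℕ} [Fact p.Prime]

open Fermat.Agent.CFT.Kum Fermat.Agent.CFT.Bridge

/-- **Local class field theory mod `p`**: `H²(G_l, ℤ/p)` is one-dimensional for `l ∋ ζ_p`. -/
theorem finrank_H2_local_all (l : IntermediateField ℚ_[q] (PadicAlgCl q))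
    [FiniteDimensional ℚ_[q] l] {ζ : PadicAlgCl q} (hζ : IsPrimitiveRoot ζ p) (hζl : ζ ∈ l)
    (ρ₀ : Representation (ZMod p) l.fixingSubgroup (ZMod p)) (h₀ : ∀ g x, ρ₀ g x = x) :
    Module.finrank (ZMod p)
      (H2 ((galLevels ℚ_[q] (PadicAlgCl q)).restrict l.fixingSubgroup) ρ₀) = 1 :=
  (kummerData_fixingSubgroup l hζ hζl).finrank_H2_all h₀ (normAll_fixingSubgroup l hζ hζl)

theorem card_H2_local_all (l : IntermediateField ℚ_[q] (PadicAlgCl q))
    [FiniteDimensional ℚ_[q] l] {ζ : PadicAlgCl q} (hζ : IsPrimitiveRoot ζ p) (hζl : ζ ∈ l)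
    (ρ₀ : Representation (ZMod p) l.fixingSubgroup (ZMod p)) (h₀ : ∀ g x, ρ₀ g x = x) :
    Nat.card (H2 ((galLevels ℚ_[q] (PadicAlgCl q)).restrict l.fixingSubgroup) ρ₀) = p :=
  (kummerData_fixingSubgroup l hζ hζl).card_H2_all h₀ (normAll_fixingSubgroup l hζ hζl)

end

open Fermat.Agent.CFT.Kum Fermat.Agent.CFT.Bridge Fermat.Agent.CFT.Global in
/-- `H²(G_l, ℤ/p)` is one-dimensional for all finite `l / ℚ_q` containing `ζ_p`. -/
theorem locH2_all {p : ℕ} [Fact p.Prime] : LocH2 p := by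
  intro q hq l hl ξ hξ
  exact finrank_H2_local_all l (hξ.map_of_injective (f := l.val) l.val.injective) ξ.2 _
    (fun g x => rfl)

end Fermat.Agent.CFTLocal
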