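import Fermat.Agent.CFT.Local2.Quad
import Fermat.Agent.CFT.Local2.LocH2All

/-!
# Local symbols on number fields, for all primes `p` (including `p = 2`)

The versions without `p ≠ 2` of `LocFunc.locSymAt`, `globSymbols`, `globSymbols_sym`, and the
existence of `LocalSymbols p F` for all number fields `F ∋ ζ_p`.
-/

set_option autoImplicit false

open Fermat.Agent.PT Fermat.Agent.CFT.Kum Fermat.Agent.CFT.Kum.KumSet
open IsDedekindDomain NumberField

namespace Fermat.Agent.CFT.Bridge

section glob

variable {K : IntermediateField ℚ (AlgebraicClosure ℚ)} [FiniteDimensional ℚ K]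
  {p : ℕ} [hp : Fact p.Prime]

/-- Local symbol data at the place `v`. -/
noncomputable def LocFunc.locSymAtAll {ζ : K} (hζ : IsPrimitiveRoot ζ p)
    {v : HeightOneSpectrum (𝓞 K)} {P : PlaceRep K v} (I : LocFunc p P) : LocSymAt p K v :=
  letI := P.hq
  { q := P.q
    hq := P.hq
    τ := emb K P.q P.g
    hτ := P.h
    s := locSymOfAll (locField (emb K P.q P.g)) (primitiveRoot_toLoc K P.q P.g hζ) I.inv I.inj }

/-- The symbols on `Kˣ` attached to local invariants. -/
noncomputable def globSymbolsAll {ζ : K} (hζ : IsPrimitiveRoot ζ p)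
    (P : ∀ v, PlaceRep K v) (I : ∀ v, LocFunc p (P v)) : Global.LocalSymbols p K :=
  localSymbols hp.out.ne_zero fun v => (I v).locSymAtAll hζ

/-- The symbols are given by the local invariants of the cup products of the Kummer characters. -/
theorem globSymbolsAll_sym {ζ : K} (hζ : IsPrimitiveRoot ζ p)
    (P : ∀ v, PlaceRep K v) (I : ∀ v, LocFunc p (P v)) (v : HeightOneSpectrum (𝓞 K)) :
    (globSymbolsAll hζ P I).sym v =
      symF (kumOf K hζ) (isFixed_fixingSubgroup K) (I v).invK := by
  let _ := (P v).hq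
  ext a x
  exact symF_resW K (P v).q (P v).g hζ (I v).inv a x

end glob

section any

variable {p : ℕ} [hp : Fact p.Prime]

theorem nonempty_locSym_all (q : ℕ) [Fact q.Prime] (l : IntermediateField ℚ_[q] (PadicAlgCl q))
    [FiniteDimensional ℚ_[q] l] {ξ : l} (hξ : IsPrimitiveRoot ξ p) :
    Nonempty (LocSym p q l) := by
  obtain ⟨inv, hinv⟩ := (CFTLocal.locH2_all (p := p)).exists_inv q l hξ
  exact ⟨locSymOfAll l hξ inv hinv.1⟩

/-- `LocalSymbols p F` exist for every number field `F ∋ ζ_p`, `p` any prime. -/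
theorem nonempty_localSymbols_all (F : Type) [Field F] [NumberField F] {ζ : F}
    (hζ : IsPrimitiveRoot ζ p) : Nonempty (Global.LocalSymbols p F) :=
  nonempty_localSymbols hp.out.ne_zero hζ (fun q _ l _ _ hξ => nonempty_locSym_all q l hξ)

end any

end Fermat.Agent.CFT.Bridge
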