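import Fermat.Agent.CFT.Bridge.LocInv
import Fermat.Agent.CFT.Global.Defs

/-!
# Quadratic norms and symbols for `p = 2`

* `norm_quad` : `N(s + t √a) = s² - a t²` in `K[X]/(X² - a)`;
* `isNormFrom_two_of` : `x = s² - a t²` is a norm from `K[X]/(X² - a)`;
* `locSymOf_all` : the local symbols `LocSym p q l`, for all `p` (including `p = 2`).
-/

set_option autoImplicit false

open Fermat.Agent.PT Fermat.Agent.CFT.Kum Fermat.Agent.CFT.Kum.KumSet
open Polynomial

namespace Fermat.Agent.CFT.Bridge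

section quad

variable {K : Type*} [Field K] (a : K)

/-- The basis `1, √a` of `K[X]/(X² - a)`. -/
noncomputable def quadBasis : Module.Basis (Fin 2) K (AdjoinRoot (X ^ 2 - C a : K[X])) :=
  ((AdjoinRoot.powerBasis' (monic_X_pow_sub_C a two_ne_zero)).basis).reindex
    (finCongr (by rw [AdjoinRoot.powerBasis'_dim, natDegree_X_pow_sub_C]))

lemma quadBasis_zero : quadBasis a 0 = 1 := by
  rw [quadBasis, Module.Basis.reindex_apply, PowerBasis.coe_basis]
  exact pow_zero _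

lemma quadBasis_one : quadBasis a 1 = AdjoinRoot.root (X ^ 2 - C a : K[X]) := by
  rw [quadBasis, Module.Basis.reindex_apply, PowerBasis.coe_basis]
  exact pow_one _

lemma root_sq : (AdjoinRoot.root (X ^ 2 - C a : K[X])) ^ 2 =
    algebraMap K (AdjoinRoot (X ^ 2 - C a : K[X])) a := by
  have h := AdjoinRoot.eval₂_root (X ^ 2 - C a : K[X])
  rw [eval₂_sub, eval₂_pow, eval₂_X, eval₂_C, sub_eq_zero] at h
  exact h

/-- `N(s + t √a) = s² - a t²`. -/
theorem norm_quad (s t : K) :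
    Algebra.norm K (s • (1 : AdjoinRoot (X ^ 2 - C a : K[X])) +
      t • AdjoinRoot.root (X ^ 2 - C a : K[X])) = s ^ 2 - a * t ^ 2 := by
  rw [Algebra.norm_eq_matrix_det (quadBasis a), Matrix.det_fin_two]
  simp only [Algebra.leftMulMatrix_eq_repr_mul]
  have h0 : (s • (1 : AdjoinRoot (X ^ 2 - C a : K[X])) +
      t • AdjoinRoot.root (X ^ 2 - C a : K[X])) * quadBasis a 0 =
      s • quadBasis a 0 + t • quadBasis a 1 := by
    rw [quadBasis_zero, quadBasis_one, mul_one]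
  have h1 : (s • (1 : AdjoinRoot (X ^ 2 - C a : K[X])) +
      t • AdjoinRoot.root (X ^ 2 - C a : K[X])) * quadBasis a 1 =
      (a * t) • quadBasis a 0 + s • quadBasis a 1 := by
    rw [quadBasis_zero, quadBasis_one, add_mul, smul_mul_assoc, one_mul, smul_mul_assoc, ← sq,
      root_sq, Algebra.algebraMap_eq_smul_one, smul_smul, mul_comm t a, add_comm]
  rw [h0, h1]
  simp only [map_add, map_smul, Module.Basis.repr_self, Finsupp.add_apply, Finsupp.smul_apply,
    smul_eq_mul]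
  simp
  ring

theorem isNormFrom_two_of {a x : Kˣ} {s t : K} (h : (x : K) = s ^ 2 - a * t ^ 2) :
    Global.IsNormFrom 2 a x :=
  ⟨_, (norm_quad (a : K) s t).trans h.symm⟩

/-- `-a` is a norm from `K(√a)`. -/
theorem isNormFrom_two_neg (a : Kˣ) : Global.IsNormFrom 2 a (-a) :=
  isNormFrom_two_of (s := 0) (t := 1) (by push_cast; ring)

end quad

section padic

lemma exists_sq_add_sq_padic {q : ℕ} [hq : Fact q.Prime] (hq2 : q ≠ 2) :
    ∃ s t : ℚ_[q], s ^ 2 + t ^ 2 = -1 := by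
  obtain ⟨a, b, hab⟩ := ZMod.sq_add_sq q (-1)
  wlog hb : b ≠ 0 generalizing a b with H
  · push Not at hb
    have ha : a ≠ 0 := by
      rintro rfl
      rw [hb] at hab
      simp at hab
    obtain ⟨s, t, h⟩ := H b a (by rw [add_comm]; exact hab) ha
    exact ⟨s, t, h⟩
  have : NeZero q := ⟨hq.out.ne_zero⟩
  set A : ℤ_[q] := (a.val : ℤ_[q]) with hA
  set B : ℤ_[q] := (b.val : ℤ_[q]) with hB
  obtain ⟨c, hc⟩ : ∃ c : ℤ_[q], c = 1 + A ^ 2 := ⟨_, rfl⟩
  set F : ℤ_[q][X] := X ^ 2 + C c with hF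
  have h1 : F.aeval B = B ^ 2 + (1 + A ^ 2) := by
    simp [hF, hc]
  have h2 : F.derivative.aeval B = 2 * B := by
    rw [hF, derivative_add, derivative_C, add_zero, derivative_X_pow]
    simp
  have h3 : ‖B ^ 2 + (1 + A ^ 2)‖ < 1 := by
    have h4 : B ^ 2 + (1 + A ^ 2) = (((b.val ^ 2 + (1 + a.val ^ 2) : ℕ) : ℤ) : ℤ_[q]) := by
      push_cast
      rfl
    rw [h4, PadicInt.norm_int_lt_one_iff_dvd, Int.natCast_dvd_natCast,
      ← ZMod.natCast_eq_zero_iff]
    push_cast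
    rw [ZMod.natCast_zmod_val, ZMod.natCast_zmod_val]
    linear_combination hab
  have h5 : ‖2 * B‖ = 1 := by
    have h4 : 2 * B = (((2 * b.val : ℕ) : ℤ) : ℤ_[q]) := by
      push_cast
      rfl
    refine le_antisymm (PadicInt.norm_le_one _) (not_lt.mp ?_)
    rw [h4, PadicInt.norm_int_lt_one_iff_dvd, Int.natCast_dvd_natCast, hq.out.dvd_mul]
    rintro (h | h)
    · exact hq2 ((Nat.prime_dvd_prime_iff_eq hq.out Nat.prime_two).mp h)
    · apply hb
      rw [← ZMod.natCast_eq_zero_iff, ZMod.natCast_zmod_val] at h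
      exact h
  obtain ⟨z, hz, -⟩ := hensels_lemma (F := F) (a := B) (by rw [h1, h2, h5, one_pow]; exact h3)
  refine ⟨(A : ℚ_[q]), (z : ℚ_[q]), ?_⟩
  have h6 : z ^ 2 + (1 + A ^ 2) = 0 := by
    rw [← hz, ← hc]
    simp [hF]
  have h7 : ((z ^ 2 + (1 + A ^ 2) : ℤ_[q]) : ℚ_[q]) = 0 := by rw [h6]; rfl
  push_cast at h7
  linear_combination h7

end padic

section loc

variable {G : Type*} [Group G] {𝓛 : LevelSys G} {Ω : Type*} [Field Ω] [MulSemiringAction G Ω]
  (K : KumSet 𝓛 Ω 2) {F : Type*} [Field F] [Algebra F Ω]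
  (hF : IsFixed G (Ω := Ω) F)

/-- `(a, a) = (a, -1)` for `p = 2`. -/
lemma symF_self_two (φ : H2 𝓛 (triv 2 G) →+ ZMod 2) (a : Fˣ) :
    symF K hF φ a a = symF K hF φ a (-1) := by
  have h1 := symF_of_isNormFrom K hF φ (isNormFrom_two_neg a)
  have h2 : symF K hF φ a (-1) * symF K hF φ a (-1) = 1 := by
    rw [← map_mul, neg_mul_neg, one_mul, map_one]
  have h3 : symF K hF φ a (-1) * symF K hF φ a a = 1 := by
    rw [← map_mul, neg_one_mul]
    exact h1
  exact mul_left_cancel (h3.trans h2.symm)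

lemma symF_self_eq_one_of_sq (φ : H2 𝓛 (triv 2 G) →+ ZMod 2) {c : Fˣ} (hc : c ^ 2 = -1)
    (a : Fˣ) : symF K hF φ a a = 1 := by
  rw [symF_self_two, ← hc, symF_pow_right]

variable {q : ℕ} [hq : Fact q.Prime] (l : IntermediateField ℚ_[q] (PadicAlgCl q))
  [FiniteDimensional ℚ_[q] l]

/-- Units at odd places pair trivially for `p = 2`. -/
theorem symF_unit_two (hq2 : q ≠ 2) {ξ : l} (hξ : IsPrimitiveRoot ξ 2)
    (φ : H2 (lev l) (triv 2 l.fixingSubgroup) →+ ZMod 2) {a x : lˣ}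
    (ha : ‖((a : l) : PadicAlgCl q)‖ = 1) (hx : ‖((x : l) : PadicAlgCl q)‖ = 1) :
    symF (kumOf l hξ) (isFixed_fixingSubgroup l) φ a x = 1 := by
  by_cases hc : ∃ c : lˣ, c ^ 2 = -1
  · obtain ⟨c, hc⟩ := hc
    by_cases hap : ∃ b : lˣ, b ^ 2 = a
    · obtain ⟨b, rfl⟩ := hap
      exact symF_pow_left _ _ φ b x
    · push Not at hap
      obtain ⟨i, y, rfl⟩ := exists_eq_pow_mul_pow_of_unit l Nat.prime_two hq2 hξ ha hx hap
      rw [map_mul, map_zpow, symF_self_eq_one_of_sq _ _ φ hc, one_zpow, one_mul, symF_pow_right]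
  · push Not at hc
    have h1 : ‖(((-1 : lˣ) : l) : PadicAlgCl q)‖ = 1 := by
      rw [Units.val_neg, Units.val_one]
      change ‖(-1 : PadicAlgCl q)‖ = 1
      rw [norm_neg, norm_one]
    obtain ⟨i, y, rfl⟩ := exists_eq_pow_mul_pow_of_unit l Nat.prime_two hq2 hξ h1 ha hc
    obtain ⟨j, z, rfl⟩ := exists_eq_pow_mul_pow_of_unit l Nat.prime_two hq2 hξ h1 hx hc
    have h2 : symF (kumOf l hξ) (isFixed_fixingSubgroup l) φ (-1) (-1) = 1 := by
      obtain ⟨s, t, hst⟩ := exists_sq_add_sq_padic hq2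
      apply symF_of_isNormFrom
      refine isNormFrom_two_of (s := algebraMap ℚ_[q] l s) (t := algebraMap ℚ_[q] l t) ?_
      rw [Units.val_neg, Units.val_one, neg_one_mul, sub_neg_eq_add, ← map_pow, ← map_pow,
        ← map_add, hst, map_neg, map_one]
    rw [map_mul, symF_pow_right, mul_one, map_zpow, map_mul, MonoidHom.mul_apply, symF_pow_left,
      mul_one, map_zpow, MonoidHom.zpow_apply, h2, one_zpow, one_zpow]

variable {p : ℕ} [hp : Fact p.Prime]

/-- The Hilbert symbol `(a, x) ↦ inv (κ_a ∪ κ_x)` on `l`, for all primes `p`. -/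
noncomputable def locSymOfAll {ξ : l} (hξ : IsPrimitiveRoot ξ p)
    (inv : H2 (lev l) (triv p l.fixingSubgroup) →+ ZMod p) (hinv : Function.Injective inv) :
    LocSym p q l where
  sym := symF (kumOf l hξ) (isFixed_fixingSubgroup l) inv
  mem_pow_iff := fun a => (exists_unit_pow_iff l).trans
    (symF_nondeg _ _ inv hinv (fun _ ha => exists_not_isNormFrom (q := q) l hp.out hξ ha) a)
  skew := symF_skew _ _ inv
  norm_mem := fun _ _ h => symF_of_isNormFrom _ _ inv h
  unit_mem := by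
    intro hqp a x ha hx
    by_cases hp2 : p = 2
    · subst hp2
      exact symF_unit_two l hqp hξ inv ha hx
    · exact (locSymOf l hp2 hξ inv hinv).unit_mem hqp a x ha hx

lemma locSymOfAll_sym {ξ : l} (hξ : IsPrimitiveRoot ξ p)
    (inv : H2 (lev l) (triv p l.fixingSubgroup) →+ ZMod p) (hinv : Function.Injective inv) :
    (locSymOfAll l hξ inv hinv).sym = symF (kumOf l hξ) (isFixed_fixingSubgroup l) inv := rfl

end loc

end Fermat.Agent.CFT.Bridge
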